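import Fermat.Agent.S59.Arch.SpecRT
import Fermat.Agent.S41.Spec.PD

/-!
# Row S59, cell NM (`Σ → Σ ∪ {q}`) — frozen interface (sub-architect helper585)

Board: `coord/S59.md` §2, memo `coord/S59-NM-helper585.md`.  Only definitions here.

## Why a stronger invariant
`Arch.RTIso` (bijectivity of `R_Σ → T_Σ` and `#Φ_R = #(𝒪/η_T)`) is NOT an induction invariant:
the Hecke inequality `η_{Σ ∪ q} ⊆ c_q · η_Σ` needs the cohomological meaning of `η_Σ`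
(Wiles: multiplicity one; Diamond: `M_Σ` free).  We carry it in NUMERICAL form:

    RTIsoPlus a Σ  :=  RTIso Σ, with an `𝒪`-point `π` of `T_Σ` of eigenvalues `a l` (`l ∉ Σ`), and
                       η_{T_Σ}(π) = δ₀(a) · ∏_{q ∈ Σ ∖ Smin} (c_q(a)),

`δ₀(a)` = ideal of the values `B(x, y)` of the Manin pairing on the `a`-eigenclasses of the
MINIMAL level `N_min`, `c_q(a) = (q - 1)(a_q² - (q + 1)²)`.

## The proof of the step (all on Betti cohomology `X_n(A) = Hom(Γ₀(n), A)`, `S41/Spec/HK.lean`)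
* `SelStatement`   (Galois side)  `#Φ_{R'} ≤ #Φ_R · #(𝒪/c_q)`.
* `EtaAbsStatement` (Hecke side)  `η_{T_Σ}(π) ⊆ δ₀ ∏ c_q`, from
  - `BettiBound n S a J` : a PRIMITIVE eigenclass `x` of level `n` with `B(x, y) ∈ J` for every
    eigenclass `y`;
  - `EtaOfBoundStatement` : `BettiBound N_Σ Σ a J ⇒ η_{T_Σ}(π) ⊆ J` (perfect pairing over `𝒪`,
    the Hecke algebra acts on `C_N(𝒪)` by self-adjoint operators: Eichler–Shimura bridge);
  - `BoundStepStatement` : `BettiBound N S a J ⇒ BettiBound (N q²) (S ∪ q) a (c_q J)`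
    (`x' = ξ x`, `ξ = q P₁ - a_q P₂ + P₃`, `P₁ = r₁ r₁`, `P₂ = r₁ r₂ = r₂ r₁`, `P₃ = r₂ r₂`;
    `ξ† P₁ = -c_q`, `ξ† P₂ = ξ† P₃ = 0`; leaves `HK2Statement`, `OldStatement`,
    `Ihara2Statement`).
* numerical criterion `Fermat.Agent.S59.H427.numerical_criterion_eta` closes the step, and the
  equalities propagate the invariant.
* `BaseStatement` : at the minimal level the invariant follows from `M` free over `T`
  (output of the Taylor–Wiles cell, S57).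
-/

set_option autoImplicit false

open Polynomial IsLocalRing CongruenceSubgroup
open scoped MatrixGroups

namespace Fermat.Agent.S59.NM

open Fermat.Agent.S59.Arch Fermat.Agent.S41.Spec Fermat.Agent.S29.H642

/-! ## 1. Definitions -/

/-- The eigenvalue `χ(T_l)` of a character of the Hecke algebra (`0` if `l` is not a prime
outside `S` not dividing `N`). -/
noncomputable def eig {N : ℕ} [NeZero N] {S : Set ℕ} {A : Type} [Semiring A]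
    (χ : CuspForm.heckeAlgebra N 2 S →+* A) (l : ℕ) : A :=
  open Classical in
  if h : l.Prime ∧ ¬ l ∣ N ∧ l ∉ S then χ (CuspForm.heckeAlgebra.T h.1 h.2.1 h.2.2) else 0

theorem eig_eq {N : ℕ} [NeZero N] {S : Set ℕ} {A : Type} [Semiring A]
    (χ : CuspForm.heckeAlgebra N 2 S →+* A) {l : ℕ} (hl : l.Prime) (hlN : ¬ l ∣ N)
    (hlS : l ∉ S) : eig χ l = χ (CuspForm.heckeAlgebra.T hl hlN hlS) := by
  unfold eig
  rw [dif_pos ⟨hl, hlN, hlS⟩]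

section Betti

variable {𝒪 : Type} [CommRing 𝒪]

/-- **Betti eigenclasses** of level `n` away from `S` for the system of eigenvalues `a`:
cuspidal homomorphisms `x : Γ₀(n) → 𝒪` with `T_l x = a_l x` for all primes `l ∤ n`, `l ∉ S`. -/
def IsEigenclass (n : ℕ) (S : Finset ℕ) (a : ℕ → 𝒪) (x : Additive (Gamma0 n) →+ 𝒪) : Prop :=
  IsCuspidal x ∧
    ∀ (l : ℕ) [Fact l.Prime] (hl : ¬ l ∣ n), l ∉ S → heckeTransfer hl x = a l • x

/-- `x` is primitive: some value of `x` is a unit (`𝒪` local). -/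
def IsPrim {n : ℕ} (x : Additive (Gamma0 n) →+ 𝒪) : Prop :=
  ∃ γ : Gamma0 n, IsUnit (x (Additive.ofMul γ))

/-- **The cohomological congruence ideal** `δ(a)` of level `n`: the ideal of the values of the
Manin pairing on pairs of eigenclasses. -/
def cohCong (n : ℕ) (S : Finset ℕ) (a : ℕ → 𝒪) : Ideal 𝒪 :=
  Ideal.span {c | ∃ x y : Additive (Gamma0 n) →+ 𝒪,
    IsEigenclass n S a x ∧ IsEigenclass n S a y ∧ maninPairing (Gamma0 n) x y = c}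

/-- `c_q(a) = (q - 1)(a_q² - (q + 1)²)`. -/
def cq (a : ℕ → 𝒪) (q : ℕ) : 𝒪 := ((q : 𝒪) - 1) * (a q ^ 2 - ((q : 𝒪) + 1) ^ 2)

/-- **The Betti bound**: a primitive eigenclass `x` of level `n` all of whose pairings with
eigenclasses lie in `J`. -/
def BettiBound (n : ℕ) (S : Finset ℕ) (a : ℕ → 𝒪) (J : Ideal 𝒪) : Prop :=
  ∃ x : Additive (Gamma0 n) →+ 𝒪, IsEigenclass n S a x ∧ IsPrim x ∧
    ∀ y : Additive (Gamma0 n) →+ 𝒪, IsEigenclass n S a y → maninPairing (Gamma0 n) x y ∈ J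

/-- The three degeneracy maps `X_N → X_{N q²}` (pull-backs along `τ ↦ τ, qτ, q²τ`). -/
def P₁ (N q : ℕ) {A : Type*} [AddCommGroup A] (φ : Additive (Gamma0 N) →+ A) :
    Additive (Gamma0 (N * q * q)) →+ A := r₁ (N * q) q (r₁ N q φ)

/-- The middle degeneracy map. -/
def P₂ (N q : ℕ) {A : Type*} [AddCommGroup A] (φ : Additive (Gamma0 N) →+ A) :
    Additive (Gamma0 (N * q * q)) →+ A := r₁ (N * q) q (r₂ N q φ)

/-- The third degeneracy map. -/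
def P₃ (N q : ℕ) {A : Type*} [AddCommGroup A] (φ : Additive (Gamma0 N) →+ A) :
    Additive (Gamma0 (N * q * q)) →+ A := r₂ (N * q) q (r₂ N q φ)

end Betti

/-! ## 2. The invariant -/

section RT

variable (p : ℕ) [Fact p.Prime]
  (𝒪 : Type) [CommRing 𝒪] [IsDomain 𝒪] [IsDiscreteValuationRing 𝒪]
  [IsAdicComplete (maximalIdeal 𝒪) 𝒪]
  (ρbar : ResidualGaloisRep (ResidueField 𝒪))

/-- The ideal `δ₀(a) · ∏_{q ∈ Σ ∖ Smin} (c_q(a))`. -/
noncomputable def targetIdeal (t : PType) (Smin Sig : Finset ℕ) (a : ℕ → 𝒪) : Ideal 𝒪 :=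
  cohCong (wilesLevel p t Smin Smin) Smin a * ∏ q ∈ Sig \ Smin, Ideal.span {cq a q}

/-- **`R_Σ ≅ T_Σ` with the cohomological invariant** (see the header).  Same data as
`Arch.RTIso`; the `𝒪`-point `π` has the eigenvalues `a l` (`l ∉ Σ`) and
`η_T(π) = δ₀(a) ∏ c_q(a)`. -/
def RTIsoPlus (t : PType) (Smin Sig : Finset ℕ) (a : ℕ → 𝒪) : Prop :=
  ∃ (_ : NeZero (wilesLevel p t Smin Sig))
    (_ : Fact (CuspForm.HasIntegralStructure (wilesLevel p t Smin Sig) 2))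
    (θ : CuspForm.heckeAlgebra (wilesLevel p t Smin Sig) 2 (↑Sig : Set ℕ) →+* ResidueField 𝒪)
    (_ : IsLocalRing (CuspForm.heckeLocal (wilesLevel p t Smin Sig) (↑Sig : Set ℕ) 𝒪 θ))
    (_ : IsNoetherianRing (CuspForm.heckeLocal (wilesLevel p t Smin Sig) (↑Sig : Set ℕ) 𝒪 θ))
    (_ : IsAdicComplete
      (maximalIdeal (CuspForm.heckeLocal (wilesLevel p t Smin Sig) (↑Sig : Set ℕ) 𝒪 θ))
      (CuspForm.heckeLocal (wilesLevel p t Smin Sig) (↑Sig : Set ℕ) 𝒪 θ))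
    (_ : IsLocalHom
      (algebraMap 𝒪 (CuspForm.heckeLocal (wilesLevel p t Smin Sig) (↑Sig : Set ℕ) 𝒪 θ)))
    (_ : Module.Finite 𝒪 (CuspForm.heckeLocal (wilesLevel p t Smin Sig) (↑Sig : Set ℕ) 𝒪 θ))
    (_ : Module.Free 𝒪 (CuspForm.heckeLocal (wilesLevel p t Smin Sig) (↑Sig : Set ℕ) 𝒪 θ))
    (H : CuspForm.HeckeGaloisRepDatum (wilesLevel p t Smin Sig) (↑Sig : Set ℕ) 𝒪 θ
      (CuspForm.heckeLocal (wilesLevel p t Smin Sig) (↑Sig : Set ℕ) 𝒪 θ)),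
    H.π = CuspForm.heckeLocal.π (wilesLevel p t Smin Sig) (↑Sig : Set ℕ) 𝒪 θ ∧
    H.ρ.residual.IsEquiv (ρbar.baseChangeAlong (ResidueField.map (algebraMap 𝒪
      (CuspForm.heckeLocal (wilesLevel p t Smin Sig) (↑Sig : Set ℕ) 𝒪 θ)))) ∧
    sigmaCond 𝒪 p t Smin Sig H.ρ ∧
    ∃ π : CuspForm.heckeLocal (wilesLevel p t Smin Sig) (↑Sig : Set ℕ) 𝒪 θ →ₐ[𝒪] 𝒪,
      (∀ (l : ℕ) (hl : l.Prime) (hlN : ¬ l ∣ wilesLevel p t Smin Sig)
        (hlS : l ∉ (↑Sig : Set ℕ)),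
        π (CuspForm.heckeLocal.π (wilesLevel p t Smin Sig) (↑Sig : Set ℕ) 𝒪 θ
          (CuspForm.heckeAlgebra.T hl hlN hlS)) = a l) ∧
      NC.congIdeal π = targetIdeal p 𝒪 t Smin Sig a ∧
      ∀ (D : GaloisRep.DeformationRingData 𝒪 ρbar (sigmaCond 𝒪 p t Smin Sig))
        (φ : D.R →ₐ[𝒪] CuspForm.heckeLocal (wilesLevel p t Smin Sig) (↑Sig : Set ℕ) 𝒪 θ),
        (∃ hφ : IsLocalHom
            (φ : D.R →+* CuspForm.heckeLocal (wilesLevel p t Smin Sig) (↑Sig : Set ℕ) 𝒪 θ),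
          (D.ρ.baseChangeAlong
            (φ : D.R →+* CuspForm.heckeLocal (wilesLevel p t Smin Sig) (↑Sig : Set ℕ) 𝒪 θ)
            hφ).IsEquiv H.ρ) →
        Function.Bijective φ ∧ Finite (NC.Cot (π.comp φ)) ∧
          Nat.card (NC.Cot (π.comp φ)) = Nat.card (𝒪 ⧸ NC.congIdeal π)

omit [Fact p.Prime] in
theorem RTIsoPlus.rtIso {t : PType} {Smin Sig : Finset ℕ} {a : ℕ → 𝒪}
    (h : RTIsoPlus p 𝒪 ρbar t Smin Sig a) : RTIso p 𝒪 ρbar t Smin Sig := by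
  obtain ⟨i1, i2, θ, i3, i4, i5, i6, i7, i8, H, h1, h2, h3, π, -, -, h4⟩ := h
  exact ⟨i1, i2, θ, i3, i4, i5, i6, i7, i8, H, h1, h2, h3, fun D φ hφ =>
    ⟨(h4 D φ hφ).1, π, (h4 D φ hφ).2⟩⟩

end RT

/-! ## 3. The cells, `Plus` form -/

/-- **Cell TW, `Plus` form.**  Hypotheses of `Arch.MinRTStatement`; the conclusion carries the
invariant for `a = eig χ`: `η_{T_min}(π_χ) = δ₀(χ)`.  (From `M_min` free over `T_min`, S57, by
`BaseStatement`.) -/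
def MinRTPlusStatement : Prop :=
  ∀ (p : ℕ) [Fact p.Prime]
    (𝒪 : Type) [CommRing 𝒪] [IsDomain 𝒪] [IsDiscreteValuationRing 𝒪]
    [IsAdicComplete (maximalIdeal 𝒪) 𝒪] [Finite (ResidueField 𝒪)] [CharZero 𝒪]
    (ρbar : ResidualGaloisRep (ResidueField 𝒪)) (Smin : Finset ℕ)
    (_h : ResidualHyp p 𝒪 ρbar Smin) (t : PType)
    (_ht : (t = .flat ∧ (GaloisRepAdic.ofResidualGaloisRep ρbar).IsFlatAt p) ∨
      (t = .sord ∧ (GaloisRepAdic.ofResidualGaloisRep ρbar).IsStrictOrdinaryAt p ∧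
        ¬ (GaloisRepAdic.ofResidualGaloisRep ρbar).IsFlatAt p))
    (_hN : NeZero (wilesLevel p t Smin Smin))
    (χ : CuspForm.heckeAlgebra (wilesLevel p t Smin Smin) 2 (↑Smin : Set ℕ) →+* 𝒪)
    (_hχ : G4.ResFrobCond ρbar ((residue 𝒪).comp χ)),
    RTIsoPlus p 𝒪 ρbar t Smin Smin (eig χ)

/-- **Cell NM, `Plus` form** (`t ≠ .ord`; the glue only uses `.flat` and `.sord`). -/
def NonMinStepPlusStatement : Prop :=
  ∀ (p : ℕ) [Fact p.Prime]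
    (𝒪 : Type) [CommRing 𝒪] [IsDomain 𝒪] [IsDiscreteValuationRing 𝒪]
    [IsAdicComplete (maximalIdeal 𝒪) 𝒪] [Finite (ResidueField 𝒪)] [CharZero 𝒪]
    (ρbar : ResidualGaloisRep (ResidueField 𝒪)) (Smin : Finset ℕ)
    (_h : ResidualHyp p 𝒪 ρbar Smin) (t : PType) (_ht : t ≠ .ord)
    (_hN : NeZero (wilesLevel p t Smin Smin))
    (χ : CuspForm.heckeAlgebra (wilesLevel p t Smin Smin) 2 (↑Smin : Set ℕ) →+* 𝒪)
    (_hχ : G4.ResFrobCond ρbar ((residue 𝒪).comp χ))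
    (Sig : Finset ℕ) (_hSig : Smin ⊆ Sig) (_hSigP : ∀ q ∈ Sig, q.Prime)
    (q : ℕ) (_hq : q.Prime) (_hqS : q ∉ Sig),
    RTIsoPlus p 𝒪 ρbar t Smin Sig (eig χ) → RTIsoPlus p 𝒪 ρbar t Smin (insert q Sig) (eig χ)

/-- **Cell NMP, `Plus` form**: the input carries the invariant, the output is `Arch.RTIso`. -/
def NonMinPPlusStatement : Prop :=
  ∀ (p : ℕ) [Fact p.Prime]
    (𝒪 : Type) [CommRing 𝒪] [IsDomain 𝒪] [IsDiscreteValuationRing 𝒪]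
    [IsAdicComplete (maximalIdeal 𝒪) 𝒪] [Finite (ResidueField 𝒪)] [CharZero 𝒪]
    (ρbar : ResidualGaloisRep (ResidueField 𝒪)) (Smin : Finset ℕ)
    (_h : ResidualHyp p 𝒪 ρbar Smin)
    (_hN : NeZero (wilesLevel p .flat Smin Smin))
    (χ : CuspForm.heckeAlgebra (wilesLevel p .flat Smin Smin) 2 (↑Smin : Set ℕ) →+* 𝒪)
    (_hχ : G4.ResFrobCond ρbar ((residue 𝒪).comp χ))
    (Sig : Finset ℕ) (_hSig : Smin ⊆ Sig) (_hSigP : ∀ q ∈ Sig, q.Prime)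
    (_hord : (GaloisRepAdic.ofResidualGaloisRep ρbar).IsOrdinaryAt p),
    RTIsoPlus p 𝒪 ρbar .flat Smin Sig (eig χ) → RTIso p 𝒪 ρbar .ord Smin Sig

/-! ## 4. Leaves of cell NM -/

/-- **NM-SEL** (Galois side).  `x`, `x'` are `𝒪`-points of the universal rings of type `Σ`,
`Σ ∪ {q}` with the same representation `ρ_x`, and `X² - a_q X + q` is the characteristic
polynomial of a Frobenius at `q` on `ρ_x` (unramified at `q`).  Then
`#Φ_{x'} ≤ #Φ_x · #(𝒪/c_q)`, `c_q = (q - 1)(a_q² - (q + 1)²) ≠ 0`. -/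
def SelStatement : Prop :=
  ∀ (p : ℕ) [Fact p.Prime]
    (𝒪 : Type) [CommRing 𝒪] [IsDomain 𝒪] [IsDiscreteValuationRing 𝒪]
    [IsAdicComplete (maximalIdeal 𝒪) 𝒪] [Finite (ResidueField 𝒪)] [CharZero 𝒪]
    (ρbar : ResidualGaloisRep (ResidueField 𝒪)) (Smin : Finset ℕ)
    (_h : ResidualHyp p 𝒪 ρbar Smin) (t : PType) (_ht : t ≠ .ord)
    (Sig : Finset ℕ) (_hSig : Smin ⊆ Sig) (_hSigP : ∀ q ∈ Sig, q.Prime)
    (q : ℕ) (_hq : q.Prime) (_hqS : q ∉ Sig)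
    (D : GaloisRep.DeformationRingData 𝒪 ρbar (sigmaCond 𝒪 p t Smin Sig))
    (D' : GaloisRep.DeformationRingData 𝒪 ρbar (sigmaCond 𝒪 p t Smin (insert q Sig)))
    (x : D.R →ₐ[𝒪] 𝒪) (x' : D'.R →ₐ[𝒪] 𝒪)
    (hx : IsLocalHom (x : D.R →+* 𝒪)) (hx' : IsLocalHom (x' : D'.R →+* 𝒪))
    (_hxx' : (D'.ρ.baseChangeAlong (x' : D'.R →+* 𝒪) hx').IsEquiv
      (D.ρ.baseChangeAlong (x : D.R →+* 𝒪) hx))
    (aq : 𝒪)
    (_haq : ∀ B : ValuationSubring Fermat.Agent.S31.Qb, B.LiesOverPrime q →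
      ∀ σ : Fermat.Agent.S31.GQ, B.IsFrobeniusAt σ q →
        LinearMap.charpoly ((D.ρ.baseChangeAlong (x : D.R →+* 𝒪) hx).ρ σ) =
          X ^ 2 - C aq * X + C ((q : 𝒪)))
    (_hc : ((q : 𝒪) - 1) * (aq ^ 2 - ((q : 𝒪) + 1) ^ 2) ≠ 0),
    Finite (NC.Cot x) →
    Finite (NC.Cot x') ∧
      Nat.card (NC.Cot x') ≤ Nat.card (NC.Cot x) *
        Nat.card (𝒪 ⧸ Ideal.span {((q : 𝒪) - 1) * (aq ^ 2 - ((q : 𝒪) + 1) ^ 2)})

/-- **NM-OLD-CHAR** (part of NM-RES): an eigensystem of level `N` away from `S` is an eigensystem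
of level `N' = N q²` away from `S ∪ {q}` (restriction of the Hecke operators to the forms of
level `N`). -/
def OldCharStatement : Prop :=
  ∀ (N N' q : ℕ) [NeZero N] [NeZero N'] (_hN' : N' = N * q ^ 2) (_hq : q.Prime)
    (S : Finset ℕ) (A : Type) [CommRing A]
    (χ : CuspForm.heckeAlgebra N 2 (↑S : Set ℕ) →+* A),
    ∃ χ' : CuspForm.heckeAlgebra N' 2 (↑(insert q S) : Set ℕ) →+* A,
      ∀ (l : ℕ) (hl : l.Prime) (hlN' : ¬ l ∣ N') (hlS' : l ∉ (↑(insert q S) : Set ℕ))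
        (hlN : ¬ l ∣ N) (hlS : l ∉ (↑S : Set ℕ)),
        χ' (CuspForm.heckeAlgebra.T hl hlN' hlS') = χ (CuspForm.heckeAlgebra.T hl hlN hlS)

/-- **NM-ETA, absolute form** (Hecke side): `η_{T_Σ}(π) ⊆ δ₀(χ) · ∏_{q ∈ Σ ∖ Smin} (c_q)` for
the `𝒪`-point `π` of `T_Σ` with the eigenvalues of `χ`, provided `δ₀(χ) ≠ 0`. -/
def EtaAbsStatement : Prop :=
  ∀ (p : ℕ) [Fact p.Prime]
    (𝒪 : Type) [CommRing 𝒪] [IsDomain 𝒪] [IsDiscreteValuationRing 𝒪]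
    [IsAdicComplete (maximalIdeal 𝒪) 𝒪] [Finite (ResidueField 𝒪)] [CharZero 𝒪]
    (ρbar : ResidualGaloisRep (ResidueField 𝒪)) (Smin : Finset ℕ)
    (_h : ResidualHyp p 𝒪 ρbar Smin) (t : PType) (_ht : t ≠ .ord)
    (_hN : NeZero (wilesLevel p t Smin Smin))
    (χ : CuspForm.heckeAlgebra (wilesLevel p t Smin Smin) 2 (↑Smin : Set ℕ) →+* 𝒪)
    (_hχ : G4.ResFrobCond ρbar ((residue 𝒪).comp χ))
    (_hδ : cohCong (wilesLevel p t Smin Smin) Smin (eig χ) ≠ ⊥)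
    (Sig : Finset ℕ) (_hSig : Smin ⊆ Sig) (_hSigP : ∀ q ∈ Sig, q.Prime)
    (_hNS : NeZero (wilesLevel p t Smin Sig))
    (_hint : Fact (CuspForm.HasIntegralStructure (wilesLevel p t Smin Sig) 2))
    (θ : CuspForm.heckeAlgebra (wilesLevel p t Smin Sig) 2 (↑Sig : Set ℕ) →+* ResidueField 𝒪)
    (π : CuspForm.heckeLocal (wilesLevel p t Smin Sig) (↑Sig : Set ℕ) 𝒪 θ →ₐ[𝒪] 𝒪)
    (_hπ : ∀ (l : ℕ) (hl : l.Prime) (hlN : ¬ l ∣ wilesLevel p t Smin Sig)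
      (hlS : l ∉ (↑Sig : Set ℕ)),
      π (CuspForm.heckeLocal.π (wilesLevel p t Smin Sig) (↑Sig : Set ℕ) 𝒪 θ
        (CuspForm.heckeAlgebra.T hl hlN hlS)) = eig χ l),
    NC.congIdeal π ≤ targetIdeal p 𝒪 t Smin Sig (eig χ)

/-! ## 5. Leaves of NM-ETA (Betti cohomology) -/

/-- The eigenvalues `a l` reduce to the Frobenius traces of `ρ̄` (at the primes `l ∉ S`). -/
def IsFrobSystem {𝒪 : Type} [CommRing 𝒪] [IsLocalRing 𝒪]
    (ρbar : ResidualGaloisRep (ResidueField 𝒪)) (S : Finset ℕ) (a : ℕ → 𝒪) : Prop :=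
  ∀ (l : ℕ), l.Prime → l ∉ S →
    ∀ B : ValuationSubring Fermat.Agent.S31.Qb, B.LiesOverPrime l →
      ∀ σ : Fermat.Agent.S31.GQ, B.IsFrobeniusAt σ l →
        LinearMap.charpoly (ρbar.ρ σ) =
          X ^ 2 - C (residue 𝒪 (a l)) * X + C ((l : ResidueField 𝒪))

/-- **ETA-OF-BOUND.**  `BettiBound N S a J ⇒ η_T(π) ⊆ J` for `T = heckeLocal N S 𝒪 θ` and the
point `π` of eigenvalues `a`.
Proof: `e ∈ Ann(ker π)` lifts to `ẽ ∈ 𝒪 ⊗ 𝕋` (`T` is a direct factor), `𝒪 ⊗ 𝕋` acts on `C_N(𝒪)`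
(Eichler–Shimura bridge: a relation between the `T_l` on cusp forms holds on `C_N(ℤ)`) by
operators which are self-adjoint for the Manin pairing; the pairing is perfect over `𝒪`, so
`B(x, m) = 1` for some cuspidal `m`, and `π(e) = B(ẽ x, m) = B(x, ẽ m) ∈ J` since `ẽ m` is an
eigenclass. -/
def EtaOfBoundStatement : Prop :=
  ∀ (p : ℕ) [Fact p.Prime]
    (𝒪 : Type) [CommRing 𝒪] [IsDomain 𝒪] [IsDiscreteValuationRing 𝒪]
    [IsAdicComplete (maximalIdeal 𝒪) 𝒪] [Finite (ResidueField 𝒪)] [CharZero 𝒪]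
    (_hp𝒪 : (p : 𝒪) ∈ maximalIdeal 𝒪)
    (N : ℕ) [NeZero N] [Fact (CuspForm.HasIntegralStructure N 2)] (S : Finset ℕ)
    (_hNS : ∀ r : ℕ, r.Prime → r ∣ N → r ∈ S)
    (θ : CuspForm.heckeAlgebra N 2 (↑S : Set ℕ) →+* ResidueField 𝒪)
    (π : CuspForm.heckeLocal N (↑S : Set ℕ) 𝒪 θ →ₐ[𝒪] 𝒪) (a : ℕ → 𝒪)
    (_hπ : ∀ (l : ℕ) (hl : l.Prime) (hlN : ¬ l ∣ N) (hlS : l ∉ (↑S : Set ℕ)),
      π (CuspForm.heckeLocal.π N (↑S : Set ℕ) 𝒪 θ (CuspForm.heckeAlgebra.T hl hlN hlS)) = a l)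
    (J : Ideal 𝒪), BettiBound N S a J → NC.congIdeal π ≤ J

/-- **BOUND-STEP.**  `BettiBound N S a J ⇒ BettiBound (N q²) (S ∪ {q}) a ((c_q) J)` for a
non-Eisenstein system `a` (`ρ̄` absolutely irreducible), `q ∤ N`, `q ∉ S ∋ p`. -/
def BoundStepStatement : Prop :=
  ∀ (p : ℕ) [Fact p.Prime] (_hp2 : p ≠ 2)
    (𝒪 : Type) [CommRing 𝒪] [IsDomain 𝒪] [IsDiscreteValuationRing 𝒪]
    [IsAdicComplete (maximalIdeal 𝒪) 𝒪] [Finite (ResidueField 𝒪)] [CharZero 𝒪]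
    (_hp𝒪 : (p : 𝒪) ∈ maximalIdeal 𝒪)
    (ρbar : ResidualGaloisRep (ResidueField 𝒪)) (_habs : ρbar.IsAbsolutelyIrreducible)
    (_hsplit : ∀ σ : AlgebraicClosure ℚ ≃ₐ[ℚ] AlgebraicClosure ℚ,
      ∃ α β : ResidueField 𝒪, LinearMap.charpoly (ρbar.ρ σ) = (X - C α) * (X - C β))
    (N N' q : ℕ) (_hN : N ≠ 0) (_hN' : N' = N * q * q) (_hq : q.Prime) (_hqN : ¬ q ∣ N)
    (S : Finset ℕ) (_hpS : p ∈ S) (_hqS : q ∉ S)
    (_hNS : ∀ r : ℕ, r.Prime → r ∣ N → r ∈ S)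
    (a : ℕ → 𝒪) (_ha : IsFrobSystem ρbar S a) (J : Ideal 𝒪),
    BettiBound N S a J → BettiBound N' (insert q S) a (Ideal.span {cq a q} * J)

/-- **HK2**: the Betti relations of the second stage `N q → N q²` (`q ∤ N`), to be combined with
HK-3, HK-4 of `S41/Spec/HK.lean` (first stage):
`r₂' r₁ = r₁' r₂`;  `t₁' r₁' = q = t₂' r₂'`;  `t₁' r₂' r₂ = r₂ T_q - r₁`;
`t₂' r₁' r₁ = r₁ T_q - r₂`  (`r_i' = r_i (N q) q`, `t_i' = t_i (N q) q`). -/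
def HK2Statement : Prop :=
  ∀ (N q : ℕ) [Fact q.Prime] (hq : ¬ q ∣ N), N ≠ 0 → ∀ (A : Type) [AddCommGroup A],
    (∀ φ : Additive (Gamma0 N) →+ A,
      r₂ (N * q) q (r₁ N q φ) = r₁ (N * q) q (r₂ N q φ) ∧
      t₁ (N * q) q (r₂ (N * q) q (r₂ N q φ)) = r₂ N q (heckeTransfer hq φ) - r₁ N q φ ∧
      t₂ (N * q) q (r₁ (N * q) q (r₁ N q φ)) = r₁ N q (heckeTransfer hq φ) - r₂ N q φ) ∧
    (∀ ψ : Additive (Gamma0 (N * q)) →+ A,
      t₁ (N * q) q (r₁ (N * q) q ψ) = q • ψ ∧ t₂ (N * q) q (r₂ (N * q) q ψ) = q • ψ)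

/-- **ADJ2**: adjunction of `r_i` and `t_i` for the Manin pairing over any domain, at BOTH stages
(no hypothesis `q ∤ N`), and self-adjointness of `T_l`. -/
def Adj2Statement : Prop :=
  ∀ (R : Type) [CommRing R] [IsDomain R] (N q : ℕ), N ≠ 0 → q.Prime →
    (∀ (x : Additive (Gamma0 N) →+ R) (y : Additive (Gamma0 (N * q)) →+ R),
      IsCuspidal x → IsCuspidal y →
      maninPairing (Gamma0 (N * q)) (r₁ N q x) y = maninPairing (Gamma0 N) x (t₁ N q y) ∧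
      maninPairing (Gamma0 (N * q)) (r₂ N q x) y = maninPairing (Gamma0 N) x (t₂ N q y)) ∧
    (∀ (l : ℕ) [Fact l.Prime] (hl : ¬ l ∣ N) (x y : Additive (Gamma0 N) →+ R),
      IsCuspidal x → IsCuspidal y →
      maninPairing (Gamma0 N) (heckeTransfer hl x) y =
        maninPairing (Gamma0 N) x (heckeTransfer hl y))

/-- **PERF**: the Manin pairing on the cuspidal classes with coefficients in a DVR is perfect:
a primitive cuspidal class pairs to `1` with some cuspidal class. -/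
def PerfStatement : Prop :=
  ∀ (𝒪 : Type) [CommRing 𝒪] [IsDomain 𝒪] [IsDiscreteValuationRing 𝒪] (n : ℕ), n ≠ 0 →
    ∀ x : Additive (Gamma0 n) →+ 𝒪, IsCuspidal x → IsPrim x →
      ∃ m : Additive (Gamma0 n) →+ 𝒪, IsCuspidal m ∧ maninPairing (Gamma0 n) x m = 1

/-- **OLD** (characteristic `0`): an eigenclass of level `N q²` away from `S ∪ {q}`, for a system
`a` which occurs in level `N`, is old: `y = P₁ z₁ + P₂ z₂ + P₃ z₃` with eigenclasses `z_i` of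
level `N` away from `S` (in particular `T_q z_i = a_q z_i`), coefficients in the fraction field.
(Atkin–Lehner–Li: `Lib/Newform`; Eichler–Shimura: S21.) -/
def OldStatement : Prop :=
  ∀ (K : Type) [Field K] [CharZero K] (N q : ℕ), N ≠ 0 → q.Prime → ¬ q ∣ N →
    ∀ (S : Finset ℕ), q ∉ S → (∀ r : ℕ, r.Prime → r ∣ N → r ∈ S) →
    ∀ (a : ℕ → K),
      (∃ x : Additive (Gamma0 N) →+ K, x ≠ 0 ∧ IsEigenclass N S a x) →
      ∀ y : Additive (Gamma0 (N * q * q)) →+ K, IsEigenclass (N * q * q) (insert q S) a y →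
        ∃ z₁ z₂ z₃ : Additive (Gamma0 N) →+ K,
          IsEigenclass N S a z₁ ∧ IsEigenclass N S a z₂ ∧ IsEigenclass N S a z₃ ∧
          y = P₁ N q z₁ + P₂ N q z₂ + P₃ N q z₃

/-- **IHARA2** (Ihara's lemma for `N → N q²`, eigen form, coefficients in a finite field `k` of
characteristic `p ≠ q`): three eigenclasses `z_i` of level `N` for a non-Eisenstein system with
`P₁ z₁ + P₂ z₂ + P₃ z₃ = 0` vanish. -/
def Ihara2Statement : Prop :=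
  ∀ (p : ℕ) [Fact p.Prime] (_hp2 : p ≠ 2) (k : Type) [Field k] [Finite k] [CharP k p]
    (ρbar : ResidualGaloisRep k) (_habs : ρbar.IsAbsolutelyIrreducible)
    (_hsplit : ∀ σ : AlgebraicClosure ℚ ≃ₐ[ℚ] AlgebraicClosure ℚ,
      ∃ α β : k, LinearMap.charpoly (ρbar.ρ σ) = (X - C α) * (X - C β))
    (N q : ℕ) (_hN : N ≠ 0) (_hq : q.Prime) (_hqN : ¬ q ∣ N) (_hqp : q ≠ p)
    (S : Finset ℕ) (_hpS : p ∈ S) (a : ℕ → k)
    (_ha : ∀ (l : ℕ), l.Prime → l ∉ S →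
      ∀ B : ValuationSubring Fermat.Agent.S31.Qb, B.LiesOverPrime l →
        ∀ σ : Fermat.Agent.S31.GQ, B.IsFrobeniusAt σ l →
          LinearMap.charpoly (ρbar.ρ σ) = X ^ 2 - C (a l) * X + C ((l : k)))
    (z₁ z₂ z₃ : Additive (Gamma0 N) →+ k),
    IsEigenclass N (insert q S) a z₁ → IsEigenclass N (insert q S) a z₂ →
    IsEigenclass N (insert q S) a z₃ →
    P₁ N q z₁ + P₂ N q z₂ + P₃ N q z₃ = 0 → z₁ = 0 ∧ z₂ = 0 ∧ z₃ = 0

/-- **BASE** (abstract; consumed by the Taylor–Wiles cell).  `T` a finite free local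
`𝒪`-algebra, REDUCED, with an `𝒪`-point `π`; `M` a `T`-module, free of finite rank over `T`
(on a nonempty basis), with an `𝒪`-bilinear form `B` which is perfect and for which `T` is
self-adjoint.  Then the ideal of the values of `B` on `M[ker π]` is `η_T(π)`. -/
def BaseStatement : Prop :=
  ∀ (𝒪 : Type) [CommRing 𝒪] [IsDomain 𝒪] [IsDiscreteValuationRing 𝒪]
    (T : Type) [CommRing T] [Algebra 𝒪 T] [Module.Finite 𝒪 T] [Module.Free 𝒪 T] [IsReduced T]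
    (π : T →ₐ[𝒪] 𝒪)
    (M : Type) [AddCommGroup M] [Module 𝒪 M] [Module T M] [IsScalarTower 𝒪 T M]
    (ι : Type) [Finite ι] [Nonempty ι] (_b : Module.Basis ι T M)
    (B : M →ₗ[𝒪] M →ₗ[𝒪] 𝒪)
    (_hperf : ∀ f : M →ₗ[𝒪] 𝒪, ∃ m : M, ∀ m' : M, B m' m = f m')
    (_hadj : ∀ (s : T) (m m' : M), B (s • m) m' = B m (s • m')),
    Ideal.span {c : 𝒪 | ∃ m m' : M, (∀ s : T, π s = 0 → s • m = 0) ∧
      (∀ s : T, π s = 0 → s • m' = 0) ∧ B m m' = c} = NC.congIdeal π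

end Fermat.Agent.S59.NM
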